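import Fermat.Agent.S19.Spec

/-!
# Cell A3 (S19) — node UNR: frozen three-node decomposition  (architect: helper992)

    UnrStatement  <==  UA (closure)  +  UB (spanning)  +  UC (coefficients)        [`unrStatement_of_nodes`]

`UnrStatement` (file `Fermat/Agent/S19/Spec.lean`): local coordinates at ONE valuation ring `V | ℓ`
of `Q̄`, equivariant under the inertia group of `V` only, give global Galois-equivariant integral
coordinates.  Paper proof: origin/helper992:coord/A3-wall.md §2 (no discriminants, no completions;
the arithmetic input is (T1),(T2) of `Fermat/Agent/S14/H714/Trans.lean`, on main).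

* `LocalOrder V M act` : a `V`-subalgebra `B ⊆ Map(M, V)`, finite over `V`, stable under the
  decomposition group of `V`, spanned by inertia-equivariant functions, separating, with
  `Δ B ⊆ B ⊗ B`.
* **UA** `ClosureStatement`  : `LocalCoordDatum ⟹ LocalOrder`
  (close the coordinates under `f ↦ σ ∘ f ∘ act σ⁻¹`, `σ` in the decomposition group; pure algebra).
* **UB** `SpanningStatement` : in a `LocalOrder`, the `G_Q`-equivariant elements of `B` span `B` over
  `V`  (orbit traces + CRT + Dedekind independence + Nakayama; uses (T1),(T2)).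
* **UC** `CoeffStatement`    : a `LocalOrder` spanned by equivariant elements gives a `CoordDatum`
  (Nakayama basis; structure constants lie in `V ∩ Q = Z_(ℓ)`).
-/

set_option autoImplicit false

noncomputable section

namespace Fermat.Agent.S19.Unr

open Fermat.Agent.S19

variable {M : Type}

/-- `σ` lies in the decomposition group of the valuation ring `V`. -/
def IsDecompAt (V : ValuationSubring Qb) (σ : GalQ) : Prop :=
  ∀ a : Qb, σ a ∈ V ↔ a ∈ V

/-- The semilinear action of `Gal(Q̄/Q)` on functions `M → Q̄`: `σ · h = σ ∘ h ∘ act σ⁻¹`. -/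
def conjFun (act : GalQ → M → M) (σ : GalQ) (h : M → Qb) : M → Qb :=
  fun m => σ (h (act σ⁻¹ m))

/-- `h` is equivariant under all of `Gal(Q̄/Q)`. -/
def IsEquivariant (act : GalQ → M → M) (h : M → Qb) : Prop :=
  ∀ (σ : GalQ) (m : M), h (act σ m) = σ (h m)

/-- `h` is equivariant under the inertia group of `V`. -/
def IsInertiaEquivariant (V : ValuationSubring Qb) (act : GalQ → M → M) (h : M → Qb) : Prop :=
  ∀ σ : GalQ, IsInertiaAt V σ → ∀ m : M, h (act σ m) = σ (h m)

/-- The functions `(s,t) ↦ b s * b' t` on `M × M`, `b, b' ∈ B`. -/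
def tensorFunctions (B : Set (M → Qb)) : Set (M × M → Qb) :=
  {F | ∃ b ∈ B, ∃ b' ∈ B, F = fun p => b p.1 * b' p.2}

/-- **Local order**: a decomposition-stable `V`-order of functions on `M`, spanned by
inertia-equivariant functions, closed under comultiplication. -/
structure LocalOrder (V : ValuationSubring Qb) (M : Type) [AddCommGroup M]
    (act : GalQ → M → M) where
  B : Subalgebra V (M → Qb)
  valued : ∀ h ∈ B, ∀ m : M, h m ∈ V
  fg : (Subalgebra.toSubmodule B).FG
  stable : ∀ σ : GalQ, IsDecompAt V σ → ∀ h ∈ B, conjFun act σ h ∈ B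
  span_inertia : Subalgebra.toSubmodule B ≤
    Submodule.span V {h | h ∈ B ∧ IsInertiaEquivariant V act h}
  separates : ∀ m m' : M, (∀ h ∈ B, h m = h m') → m = m'
  comul : ∀ h ∈ B, (fun p : M × M => h (p.1 + p.2)) ∈
    Submodule.span V (tensorFunctions (B : Set (M → Qb)))

variable [AddCommGroup M]

/-- The `G_Q`-equivariant elements of a local order. -/
def LocalOrder.equivariantElements {V : ValuationSubring Qb} {act : GalQ → M → M}
    (O : LocalOrder V M act) : Set (M → Qb) :=
  {h | h ∈ O.B ∧ IsEquivariant act h}

/-- **Node UA** (closure under the decomposition group; pure algebra). -/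
def ClosureStatement : Prop :=
  ∀ (ℓ : ℕ) [Fact ℓ.Prime] (M : Type) [AddCommGroup M] [Finite M] (act : GalQ → M → M),
    IsContAddAction act → ∀ L : LocalCoordDatum ℓ M act, Nonempty (LocalOrder L.V M act)

/-- **Node UB** (the equivariant elements span). -/
def SpanningStatement : Prop :=
  ∀ (ℓ : ℕ) [Fact ℓ.Prime] (M : Type) [AddCommGroup M] [Finite M] (act : GalQ → M → M),
    IsContAddAction act → ∀ V : ValuationSubring Qb, (ℓ : Qb) ∈ V.nonunits →
    ∀ O : LocalOrder V M act,
      Subalgebra.toSubmodule O.B ≤ Submodule.span V O.equivariantElements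

/-- **Node UC** (global coordinates from a local order spanned by equivariant elements). -/
def CoeffStatement : Prop :=
  ∀ (ℓ : ℕ) [Fact ℓ.Prime] (M : Type) [AddCommGroup M] [Finite M] (act : GalQ → M → M),
    IsContAddAction act → ∀ V : ValuationSubring Qb, (ℓ : Qb) ∈ V.nonunits →
    ∀ O : LocalOrder V M act,
      Subalgebra.toSubmodule O.B ≤ Submodule.span V O.equivariantElements →
      Nonempty (CoordDatum ℓ M act)

/-- **Glue**: UNR from its three nodes. -/
theorem unrStatement_of_nodes (hA : ClosureStatement) (hB : SpanningStatement)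
    (hC : CoeffStatement) : UnrStatement := by
  intro ℓ _ M _ _ act hact L
  obtain ⟨O⟩ := hA ℓ M act hact L
  exact hC ℓ M act hact L.V L.ell_mem O (hB ℓ M act hact L.V L.ell_mem O)

end Fermat.Agent.S19.Unr

end
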